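/-
S16 shared library CONJ (helper53): the `SL(2,ℤ)`-conjugates of a level-`p` modular form,
function level.  `f : ModularForm (Gamma0 p) k`, `gS f = f ∣[k] S`, conjugates
`f` and `gS f ∣[k] T^j` (`j` mod `p`).  Slashing with `S`, `T` permutes them.
Mathlib only.
-/
import Mathlib

set_option autoImplicit false

open UpperHalfPlane ModularForm CongruenceSubgroup ModularGroup
open scoped MatrixGroups ModularForm Manifold

namespace Fermat.Agent.S16.Conj53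

variable {p : ℕ} {k : ℤ}

/-- Invariance of a level-`p` form under an element of `Γ₀(p)`, for the `SL(2,ℤ)` slash. -/
theorem slash_of_mem (f : ModularForm (Gamma0 p) k) (γ : SL(2, ℤ)) (hγ : γ ∈ Gamma0 p) :
    (f : ℍ → ℂ) ∣[k] γ = f := by
  have := SlashInvariantFormClass.slash_action_eq f (Matrix.SpecialLinearGroup.mapGL ℝ γ)
    (Subgroup.mem_map_of_mem _ hγ)
  rw [SL_slash]
  exact this

theorem slash_mul_of_mem (f : ModularForm (Gamma0 p) k) (γ δ : SL(2, ℤ)) (hγ : γ ∈ Gamma0 p) :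
    (f : ℍ → ℂ) ∣[k] (γ * δ) = (f : ℍ → ℂ) ∣[k] δ := by
  rw [SlashAction.slash_mul, slash_of_mem f γ hγ]

/-! ### Matrix facts -/

theorem S_mul_T_zpow (n : ℤ) : ((S * T ^ n : SL(2, ℤ)) : Matrix (Fin 2) (Fin 2) ℤ) = !![0, -1; 1, n] := by
  rw [Matrix.SpecialLinearGroup.coe_mul, coe_T_zpow, coe_S]
  ext i j; fin_cases i <;> fin_cases j <;> simp

theorem S_mul_T_zpow_mul_S (n : ℤ) :
    ((S * T ^ n * S : SL(2, ℤ)) : Matrix (Fin 2) (Fin 2) ℤ) = !![-1, 0; n, -1] := by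
  rw [Matrix.SpecialLinearGroup.coe_mul, S_mul_T_zpow, coe_S]
  ext i j; fin_cases i <;> fin_cases j <;> simp

/-- `S T^p S⁻¹ ∈ Γ₀(p)`, written as `S * T^(n) * S = (γ) * S * S`... we use the form
`S * T^(n+p) = γ * (S * T^n)` with `γ ∈ Γ₀(p)`. -/
theorem exists_mem_S_T_add (n : ℤ) :
    ∃ γ : SL(2, ℤ), γ ∈ Gamma0 p ∧ S * T ^ (n + p) = γ * (S * T ^ n) := by
  refine ⟨S * T ^ (n + p) * (S * T ^ n)⁻¹, ?_, by group⟩
  rw [Gamma0_mem]
  have h1 : ((S * T ^ (n + p) * (S * T ^ n)⁻¹ : SL(2, ℤ)) : Matrix (Fin 2) (Fin 2) ℤ) 1 0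
      = -(p : ℤ) := by
    rw [Matrix.SpecialLinearGroup.coe_mul, Matrix.SpecialLinearGroup.coe_inv, S_mul_T_zpow,
      S_mul_T_zpow, Matrix.adjugate_fin_two]
    simp
  rw [h1]
  simp

/-- For `j j' + 1 ≡ 0 mod p`: `S T^j S = γ (S T^j')` with `γ ∈ Γ₀(p)`. -/
theorem exists_mem_S_T_S (j j' : ℤ) (h : (p : ℤ) ∣ j * j' + 1) :
    ∃ γ : SL(2, ℤ), γ ∈ Gamma0 p ∧ S * T ^ j * S = γ * (S * T ^ j') := by
  refine ⟨S * T ^ j * S * (S * T ^ j')⁻¹, ?_, by group⟩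
  rw [Gamma0_mem]
  have h1 : ((S * T ^ j * S * (S * T ^ j')⁻¹ : SL(2, ℤ)) : Matrix (Fin 2) (Fin 2) ℤ) 1 0
      = j * j' + 1 := by
    rw [Matrix.SpecialLinearGroup.coe_mul, Matrix.SpecialLinearGroup.coe_inv, S_mul_T_zpow_mul_S,
      S_mul_T_zpow, Matrix.adjugate_fin_two]
    simp
  rw [h1]
  exact (ZMod.intCast_zmod_eq_zero_iff_dvd _ p).mpr h

theorem neg_one_mem : (-1 : SL(2, ℤ)) ∈ Gamma0 p := by
  rw [Gamma0_mem]; simp

theorem S_mul_S : (S * S : SL(2, ℤ)) = -1 := by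
  ext i j; fin_cases i <;> fin_cases j <;> simp [coe_S]

/-! ### The conjugates -/

/-- `f ∣ S`. -/
noncomputable def gS (f : ModularForm (Gamma0 p) k) : ℍ → ℂ := (f : ℍ → ℂ) ∣[k] S

/-- `f ∣ S T^n`. -/
noncomputable def tr (f : ModularForm (Gamma0 p) k) (n : ℤ) : ℍ → ℂ := gS f ∣[k] (T ^ n)

theorem tr_eq (f : ModularForm (Gamma0 p) k) (n : ℤ) :
    tr f n = (f : ℍ → ℂ) ∣[k] (S * T ^ n) := by
  rw [tr, gS, SlashAction.slash_mul]

theorem tr_add_p (f : ModularForm (Gamma0 p) k) (n : ℤ) : tr f (n + p) = tr f n := by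
  obtain ⟨γ, hγ, h⟩ := exists_mem_S_T_add (p := p) n
  rw [tr_eq, tr_eq, h, slash_mul_of_mem f γ _ hγ]

theorem tr_slash_T (f : ModularForm (Gamma0 p) k) (n : ℤ) : tr f n ∣[k] T = tr f (n + 1) := by
  rw [tr, tr, ← SlashAction.slash_mul, zpow_add_one]

theorem tr_slash_S (f : ModularForm (Gamma0 p) k) (j j' : ℤ) (h : (p : ℤ) ∣ j * j' + 1) :
    tr f j ∣[k] S = tr f j' := by
  obtain ⟨γ, hγ, hm⟩ := exists_mem_S_T_S (p := p) j j' h
  rw [tr_eq, tr_eq, ← SlashAction.slash_mul, hm, slash_mul_of_mem f γ _ hγ]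

theorem tr_zero (f : ModularForm (Gamma0 p) k) : tr f 0 = gS f := by
  rw [tr, zpow_zero, SlashAction.slash_one]

theorem gS_slash_S (f : ModularForm (Gamma0 p) k) : gS f ∣[k] S = f := by
  rw [gS, ← SlashAction.slash_mul, S_mul_S, slash_of_mem f _ neg_one_mem]

theorem coe_slash_T (f : ModularForm (Gamma0 p) k) : (f : ℍ → ℂ) ∣[k] T = f := by
  apply slash_of_mem
  rw [Gamma0_mem]; simp [coe_T]

theorem tr_periodic (f : ModularForm (Gamma0 p) k) (n : ℤ) (m : ℤ) :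
    tr f (n + m * p) = tr f n := by
  induction m using Int.induction_on with
  | zero => simp
  | succ i ih =>
    have : n + ((i : ℤ) + 1) * p = (n + i * p) + p := by ring
    rw [this, tr_add_p, ih]
  | pred i ih =>
    have : n + (-(i : ℤ)) * p = (n + (-(i : ℤ) - 1) * p) + p := by ring
    rw [this, tr_add_p] at ih
    exact ih

theorem tr_congr (f : ModularForm (Gamma0 p) k) {n n' : ℤ} (h : (n : ZMod p) = (n' : ZMod p)) :
    tr f n = tr f n' := by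
  obtain ⟨m, hm⟩ : (p : ℤ) ∣ n - n' := by
    rw [← ZMod.intCast_zmod_eq_zero_iff_dvd]
    simp [h]
  have : n = n' + m * p := by linarith [hm, mul_comm (p : ℤ) m]
  rw [this, tr_periodic]

end Fermat.Agent.S16.Conj53
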