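/-
S16 shared library CONJ (helper53): elementary symmetric functions of the `SL(2,ℤ)`-conjugates of a
level-`p` form are level-one modular forms.
-/
import Fermat.Agent.S16.Conj53.Basic

set_option autoImplicit false

open UpperHalfPlane ModularForm CongruenceSubgroup ModularGroup
open scoped MatrixGroups ModularForm Manifold

namespace Fermat.Agent.S16.Conj53

variable {p : ℕ} {k : ℤ}

/-! ### A general invariance lemma for symmetric functions -/

section General

variable {ι : Type*} [Fintype ι] [DecidableEq ι]

/-- `i`-th elementary symmetric function of a finite family of functions on `ℍ`. -/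
noncomputable def esymmFun (F : ι → ℍ → ℂ) (i : ℕ) : ℍ → ℂ :=
  ∑ s ∈ Finset.powersetCard i (Finset.univ : Finset ι), ∏ a ∈ s, F a

omit [Fintype ι] [DecidableEq ι] in
theorem prod_slash_SL (F : ι → ℍ → ℂ) (s : Finset ι) (γ : SL(2, ℤ)) :
    (∏ a ∈ s, F a) ∣[k * (s.card : ℤ)] γ = ∏ a ∈ s, (F a ∣[k] γ) := by
  rw [SL_slash, ModularForm.prod_slash]
  simp [SL_slash]

theorem esymmFun_slash (F : ι → ℍ → ℂ) (i : ℕ) (γ : SL(2, ℤ)) (σ : Equiv.Perm ι)
    (h : ∀ a, F a ∣[k] γ = F (σ a)) :
    esymmFun F i ∣[k * (i : ℤ)] γ = esymmFun F i := by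
  unfold esymmFun
  rw [SL_slash, SlashAction.sum_slash]
  have h1 : ∀ s ∈ Finset.powersetCard i (Finset.univ : Finset ι),
      (∏ a ∈ s, F a) ∣[k * (i : ℤ)]
        (Matrix.SpecialLinearGroup.toGL ((Matrix.SpecialLinearGroup.map (Int.castRingHom ℝ)) γ))
        = ∏ b ∈ s.map σ.toEmbedding, F b := by
    intro s hs
    have hc : s.card = i := (Finset.mem_powersetCard.mp hs).2
    rw [← SL_slash, ← hc, prod_slash_SL, Finset.prod_map]
    exact Finset.prod_congr rfl fun a _ => h a
  rw [Finset.sum_congr rfl h1]
  refine Finset.sum_bij (fun s _ => s.map σ.toEmbedding) ?_ ?_ ?_ ?_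
  · intro s hs
    rw [Finset.mem_powersetCard] at hs ⊢
    exact ⟨Finset.subset_univ _, by rw [Finset.card_map]; exact hs.2⟩
  · intro s _ t _ hst
    exact Finset.map_injective _ hst
  · intro t ht
    refine ⟨t.map σ.symm.toEmbedding, ?_, ?_⟩
    · rw [Finset.mem_powersetCard] at ht ⊢
      exact ⟨Finset.subset_univ _, by rw [Finset.card_map]; exact ht.2⟩
    · ext b
      simp
  · intro s _
    rfl

end General

/-! ### The family of conjugates -/

variable [hp : Fact p.Prime]

/-- The `p + 1` conjugates of `f`. -/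
noncomputable def conj (f : ModularForm (Gamma0 p) k) : Option (ZMod p) → ℍ → ℂ
  | none => f
  | some j => tr f (j.val : ℤ)

/-- The permutation induced by `T`. -/
def sigmaT : Equiv.Perm (Option (ZMod p)) := Equiv.optionCongr (Equiv.addRight 1)

/-- The map induced by `S`. -/
def sigmaSFun : Option (ZMod p) → Option (ZMod p)
  | none => some 0
  | some j => if j = 0 then none else some (-j⁻¹)

theorem sigmaSFun_involutive : Function.Involutive (sigmaSFun (p := p)) := by
  intro a
  cases a with
  | none => simp [sigmaSFun]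
  | some j =>
    by_cases hj : j = 0
    · simp [sigmaSFun, hj]
    · have h2 : -j⁻¹ ≠ 0 := neg_ne_zero.mpr (inv_ne_zero hj)
      simp [sigmaSFun, hj]

/-- The permutation induced by `S`. -/
def sigmaS : Equiv.Perm (Option (ZMod p)) := sigmaSFun_involutive.toPerm

theorem conj_slash_T (f : ModularForm (Gamma0 p) k) (a : Option (ZMod p)) :
    conj f a ∣[k] T = conj f (sigmaT a) := by
  cases a with
  | none => simpa [conj, sigmaT] using coe_slash_T f
  | some j =>
    simp only [conj, sigmaT, Equiv.optionCongr_apply, Option.map_some, Equiv.coe_addRight]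
    rw [tr_slash_T]
    apply tr_congr
    simp

theorem conj_slash_S (f : ModularForm (Gamma0 p) k) (a : Option (ZMod p)) :
    conj f a ∣[k] S = conj f (sigmaS a) := by
  cases a with
  | none =>
    simp only [conj, sigmaS, Function.Involutive.coe_toPerm, sigmaSFun]
    rw [ZMod.val_zero]
    exact (tr_zero f).symm
  | some j =>
    by_cases hj : j = 0
    · subst hj
      simp only [conj, sigmaS, Function.Involutive.coe_toPerm, sigmaSFun, if_true, ZMod.val_zero]
      simpa [tr_zero] using gS_slash_S f
    · simp only [conj, sigmaS, Function.Involutive.coe_toPerm, sigmaSFun, if_neg hj]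
      apply tr_slash_S
      rw [← ZMod.intCast_zmod_eq_zero_iff_dvd]
      push_cast
      rw [ZMod.natCast_zmod_val, ZMod.natCast_zmod_val, mul_neg, mul_inv_cancel₀ hj]
      ring

/-- The symmetric functions of the conjugates. -/
noncomputable def esymmConj (f : ModularForm (Gamma0 p) k) (i : ℕ) : ℍ → ℂ :=
  esymmFun (conj f) i

theorem esymmConj_slash_T (f : ModularForm (Gamma0 p) k) (i : ℕ) :
    esymmConj f i ∣[k * (i : ℤ)] T = esymmConj f i :=
  esymmFun_slash _ i T sigmaT (conj_slash_T f)

theorem esymmConj_slash_S (f : ModularForm (Gamma0 p) k) (i : ℕ) :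
    esymmConj f i ∣[k * (i : ℤ)] S = esymmConj f i :=
  esymmFun_slash _ i S sigmaS (conj_slash_S f)

omit hp in
theorem conj_mdiff (f : ModularForm (Gamma0 p) k) (a : Option (ZMod p)) : MDiff (conj f a) := by
  cases a with
  | none => exact ModularFormClass.holo f
  | some j =>
    simp only [conj, tr_eq]
    rw [SL_slash]
    exact (ModularFormClass.holo f).slash k _

theorem conj_bdd (f : ModularForm (Gamma0 p) k) (a : Option (ZMod p)) :
    IsBoundedAtImInfty (conj f a) := by
  have : NeZero p := ⟨hp.out.ne_zero⟩
  cases a with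
  | none =>
    have := ModularFormClass.bdd_at_infty_slash f (1 : SL(2, ℤ))
    simpa [conj] using this
  | some j =>
    simp only [conj, tr_eq]
    exact ModularFormClass.bdd_at_infty_slash f _

end Fermat.Agent.S16.Conj53
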