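/-
S16 shared library CONJ (helper53): `esymmForm f i : ModularForm 𝒮ℒ (k * i)`.
-/
import Fermat.Agent.S16.Conj53.Symm

set_option autoImplicit false

open UpperHalfPlane ModularForm CongruenceSubgroup ModularGroup
open scoped MatrixGroups ModularForm Manifold

namespace Fermat.Agent.S16.Conj53

variable {p : ℕ} {k : ℤ} [hp : Fact p.Prime]

theorem esymmConj_slash (f : ModularForm (Gamma0 p) k) (i : ℕ) (γ : SL(2, ℤ)) :
    esymmConj f i ∣[k * (i : ℤ)] γ = esymmConj f i :=
  SlashInvariantForm.slash_action_generators_SL2Z (esymmConj_slash_S f i) (esymmConj_slash_T f i) γ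

theorem esymmConj_mdiff (f : ModularForm (Gamma0 p) k) (i : ℕ) : MDiff (esymmConj f i) := by
  unfold esymmConj esymmFun
  exact MDifferentiable.sum fun s _ => MDifferentiable.prod fun a _ => conj_mdiff f a

theorem esymmConj_bdd (f : ModularForm (Gamma0 p) k) (i : ℕ) :
    IsBoundedAtImInfty (esymmConj f i) := by
  unfold esymmConj esymmFun
  rw [IsBoundedAtImInfty, Filter.BoundedAtFilter]
  rw [Finset.sum_fn]
  refine Asymptotics.IsBigO.fun_sum fun s _ => ?_
  rw [show (1 : ℍ → ℝ) = (fun x ↦ ∏ (_a ∈ s), (1 : ℝ)) by ext; simp, Finset.prod_fn]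
  exact Asymptotics.IsBigO.finsetProd fun a _ => conj_bdd f a

/-- The `i`-th elementary symmetric function of the conjugates of `f`, as a level-one modular
form of weight `k * i`. -/
noncomputable def esymmForm (f : ModularForm (Gamma0 p) k) (i : ℕ) : ModularForm 𝒮ℒ (k * (i : ℤ)) where
  toFun := esymmConj f i
  slash_action_eq' A hA := by
    obtain ⟨A, rfl⟩ := hA
    exact esymmConj_slash f i A
  holo' := esymmConj_mdiff f i
  bdd_at_cusps' hc := by
    rw [Subgroup.IsArithmetic.isCusp_iff_isCusp_SL2Z] at hc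
    rw [OnePoint.isBoundedAt_iff_forall_SL2Z hc]
    intro γ _
    rw [esymmConj_slash]
    exact esymmConj_bdd f i

@[simp] theorem esymmForm_apply (f : ModularForm (Gamma0 p) k) (i : ℕ) (z : ℍ) :
    esymmForm f i z = esymmConj f i z := rfl

end Fermat.Agent.S16.Conj53
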