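/-
S16 shared library CONJ (helper53): `q^(1/p)`-expansions of the conjugates `f ∣ S T^j`.
-/
import Fermat.Agent.S16.Conj53.Form

set_option autoImplicit false

open UpperHalfPlane ModularForm CongruenceSubgroup ModularGroup Function
open scoped MatrixGroups ModularForm Manifold

namespace Fermat.Agent.S16.Conj53

variable {p : ℕ} {k : ℤ}

theorem denom_T_zpow (n : ℤ) (τ : ℍ) : denom ((T ^ n : SL(2, ℤ)) : GL (Fin 2) ℝ) τ = 1 := by
  have h10 : ((T ^ n : SL(2, ℤ)) 1 0 : ℤ) = 0 := by simp [coe_T_zpow]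
  have h11 : ((T ^ n : SL(2, ℤ)) 1 1 : ℤ) = 1 := by simp [coe_T_zpow]
  show (((T ^ n : SL(2, ℤ)) 1 0 : ℤ) : ℂ) * τ + (((T ^ n : SL(2, ℤ)) 1 1 : ℤ) : ℂ) = 1
  rw [h10, h11]; simp

theorem slash_T_zpow_apply (g : ℍ → ℂ) (n : ℤ) (τ : ℍ) :
    (g ∣[k] (T ^ n)) τ = g ((n : ℝ) +ᵥ τ) := by
  rw [SL_slash_apply, modular_T_zpow_smul, denom_T_zpow]
  simp

theorem tr_apply (f : ModularForm (Gamma0 p) k) (n : ℤ) (τ : ℍ) :
    tr f n τ = gS f ((n : ℝ) +ᵥ τ) := by
  rw [tr, slash_T_zpow_apply]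

theorem gS_vadd_p (f : ModularForm (Gamma0 p) k) (τ : ℍ) :
    gS f (((p : ℕ) : ℝ) +ᵥ τ) = gS f τ := by
  have h := congrFun (tr_add_p f 0) τ
  rw [tr_apply, tr_apply] at h
  simpa using h

theorem gS_periodic (f : ModularForm (Gamma0 p) k) :
    Periodic (gS f ∘ ofComplex) (p : ℝ) := by
  intro w
  by_cases! hw : 0 < Complex.im w
  · have h2 : 0 < Complex.im (w + ((p : ℝ) : ℂ)) := by simp [hw]
    simp only [comp_apply, ofComplex_apply_of_im_pos h2, ofComplex_apply_of_im_pos hw]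
    rw [← gS_vadd_p f ⟨w, hw⟩]
    congr 1
    ext
    simp [add_comm]
  · have h2 : Complex.im (w + ((p : ℝ) : ℂ)) ≤ 0 := by simpa using hw
    simp only [comp_apply]
    rw [ofComplex_apply_of_im_nonpos h2, ofComplex_apply_of_im_nonpos hw]

theorem gS_mdiff (f : ModularForm (Gamma0 p) k) : MDiff (gS f) := by
  unfold gS
  rw [SL_slash]
  exact (ModularFormClass.holo f).slash k _

theorem gS_bdd [NeZero p] (f : ModularForm (Gamma0 p) k) : IsBoundedAtImInfty (gS f) :=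
  ModularFormClass.bdd_at_infty_slash f S

/-- The `m`-th coefficient of the `q^(1/p)`-expansion of `f ∣ S`. -/
noncomputable def bS (f : ModularForm (Gamma0 p) k) (m : ℕ) : ℂ :=
  (qExpansion (p : ℝ) (gS f)).coeff m

theorem hasSum_gS [NeZero p] (f : ModularForm (Gamma0 p) k) (τ : ℍ) :
    HasSum (fun m : ℕ => bS f m * Periodic.qParam (p : ℝ) τ ^ m) (gS f τ) := by
  have hp : (0 : ℝ) < p := by exact_mod_cast Nat.pos_of_ne_zero (NeZero.ne p)
  simpa [bS, smul_eq_mul] using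
    hasSum_qExpansion hp (gS_periodic f) (gS_mdiff f) (gS_bdd f) τ

/-- `ζ = exp(2πi/p)`. -/
noncomputable def zeta (p : ℕ) : ℂ := Complex.exp (2 * Real.pi * Complex.I / p)

theorem qParam_vadd (n : ℤ) (τ : ℍ) [NeZero p] :
    Periodic.qParam (p : ℝ) (((n : ℝ) +ᵥ τ : ℍ) : ℂ) = zeta p ^ n * Periodic.qParam (p : ℝ) τ := by
  have hp : (p : ℂ) ≠ 0 := by exact_mod_cast NeZero.ne p
  unfold Periodic.qParam zeta
  rw [← Complex.exp_int_mul, ← Complex.exp_add]
  congr 1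
  rw [coe_vadd]
  push_cast
  field_simp

theorem hasSum_tr [NeZero p] (f : ModularForm (Gamma0 p) k) (n : ℤ) (τ : ℍ) :
    HasSum (fun m : ℕ => bS f m * (zeta p ^ n) ^ m * Periodic.qParam (p : ℝ) τ ^ m) (tr f n τ) := by
  rw [tr_apply]
  have h := hasSum_gS f ((n : ℝ) +ᵥ τ)
  simp_rw [qParam_vadd, mul_pow, ← mul_assoc] at h
  exact h

theorem zeta_pow_p [NeZero p] : zeta p ^ p = 1 := by
  have hp : (p : ℂ) ≠ 0 := by exact_mod_cast NeZero.ne p
  unfold zeta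
  rw [← Complex.exp_nat_mul]
  rw [show (p : ℂ) * (2 * Real.pi * Complex.I / p) = 2 * Real.pi * Complex.I by field_simp]
  exact Complex.exp_two_pi_mul_I

theorem qParam_p_pow_p [NeZero p] (τ : ℍ) :
    Periodic.qParam (p : ℝ) τ ^ p = Periodic.qParam 1 τ := by
  have hp : (p : ℂ) ≠ 0 := by exact_mod_cast NeZero.ne p
  unfold Periodic.qParam
  rw [← Complex.exp_nat_mul]
  congr 1
  push_cast
  field_simp

end Fermat.Agent.S16.Conj53
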