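/-
S16 shared library CONJ (helper53): the trace `f + ∑_j f ∣ S T^j` of a form on `Γ₀(p)` as a
level-one form (`esymmForm f 1`) and its `q`-expansion:
`a_n(Tr f) = a_n(f) + p * b_{pn}`, where `b_m` are the `q^(1/p)`-coefficients of `f ∣ S`.
-/
import Fermat.Agent.S16.Conj53.Expansion
import Fermat.Prelude.Thm_CongruenceSubgroup_one_mem_strictPeriods_Gamma0

set_option autoImplicit false

open UpperHalfPlane ModularForm CongruenceSubgroup ModularGroup Function
open scoped MatrixGroups ModularForm Manifold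

namespace Fermat.Agent.S16.Conj53

variable {p : ℕ} {k : ℤ}

theorem zeta_isPrimitiveRoot [NeZero p] : IsPrimitiveRoot (zeta p) p :=
  Complex.isPrimitiveRoot_exp p (NeZero.ne p)

/-- Orthogonality of the `p`-th roots of unity. -/
theorem sum_zeta_pow [NeZero p] (m : ℕ) :
    ∑ j ∈ Finset.range p, (zeta p ^ ((j : ℕ) : ℤ)) ^ m = if p ∣ m then (p : ℂ) else 0 := by
  have h1 : ∀ j ∈ Finset.range p, (zeta p ^ ((j : ℕ) : ℤ)) ^ m = (zeta p ^ m) ^ j := by
    intro j _
    rw [zpow_natCast, ← pow_mul, ← pow_mul, mul_comm]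
  rw [Finset.sum_congr rfl h1]
  split_ifs with h
  · have : zeta p ^ m = 1 := (zeta_isPrimitiveRoot.pow_eq_one_iff_dvd m).mpr h
    simp [this]
  · have hne : zeta p ^ m ≠ 1 := fun h1 => h ((zeta_isPrimitiveRoot.pow_eq_one_iff_dvd m).mp h1)
    have h2 : (∑ j ∈ Finset.range p, (zeta p ^ m) ^ j) * (zeta p ^ m - 1) = 0 := by
      rw [geom_sum_mul, ← pow_mul, mul_comm, pow_mul, zeta_pow_p, one_pow, sub_self]
    rcases mul_eq_zero.mp h2 with h3 | h3
    · exact h3
    · exact absurd (sub_eq_zero.mp h3) hne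

/-- The sum of the conjugates `f ∣ S T^j`, `j < p`, has a `q`-expansion (in `q = e^{2πiτ}`) with
coefficients `p * b_{pn}`. -/
theorem hasSum_sum_tr [NeZero p] (f : ModularForm (Gamma0 p) k) (τ : ℍ) :
    HasSum (fun n : ℕ => (p : ℂ) * bS f (p * n) * Periodic.qParam 1 τ ^ n)
      (∑ j ∈ Finset.range p, tr f ((j : ℕ) : ℤ) τ) := by
  have hp0 : p ≠ 0 := NeZero.ne p
  have h1 : HasSum (fun m : ℕ => ∑ j ∈ Finset.range p,
      bS f m * (zeta p ^ ((j : ℕ) : ℤ)) ^ m * Periodic.qParam (p : ℝ) τ ^ m)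
      (∑ j ∈ Finset.range p, tr f ((j : ℕ) : ℤ) τ) :=
    hasSum_sum fun j _ => hasSum_tr f j τ
  set F : ℕ → ℂ := fun m => if p ∣ m then (p : ℂ) * bS f m * Periodic.qParam (p : ℝ) τ ^ m else 0
    with hF
  have h2 : (fun m : ℕ => ∑ j ∈ Finset.range p,
      bS f m * (zeta p ^ ((j : ℕ) : ℤ)) ^ m * Periodic.qParam (p : ℝ) τ ^ m) = F := by
    funext m
    rw [hF]
    simp only
    rw [← Finset.sum_mul, ← Finset.mul_sum, sum_zeta_pow]
    split_ifs <;> ring
  rw [h2] at h1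
  have hinj : Injective (fun n : ℕ => p * n) := fun a b hab => Nat.eq_of_mul_eq_mul_left
    (Nat.pos_of_ne_zero hp0) hab
  have h3 : ∀ x ∉ Set.range (fun n : ℕ => p * n), F x = 0 := by
    intro x hx
    rw [hF]
    simp only
    rw [if_neg]
    rintro ⟨c, rfl⟩
    exact hx ⟨c, rfl⟩
  have h4 := (hinj.hasSum_iff h3).mpr h1
  convert h4 using 1
  funext n
  simp only [comp_apply, hF]
  rw [if_pos (dvd_mul_right p n), pow_mul, qParam_p_pow_p]

variable [hp : Fact p.Prime]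

theorem sum_zmod_eq_sum_range (g : ℤ → ℂ) :
    ∑ j : ZMod p, g ((j.val : ℕ) : ℤ) = ∑ j ∈ Finset.range p, g ((j : ℕ) : ℤ) := by
  obtain ⟨n, rfl⟩ : ∃ n, p = n + 1 := ⟨p - 1, (Nat.succ_pred_eq_of_pos hp.out.pos).symm⟩
  exact Fin.sum_univ_eq_sum_range (fun j => g ((j : ℕ) : ℤ)) (n + 1)

theorem esymmConj_one_apply (f : ModularForm (Gamma0 p) k) (τ : ℍ) :
    esymmConj f 1 τ = f τ + ∑ j ∈ Finset.range p, tr f ((j : ℕ) : ℤ) τ := by
  unfold esymmConj esymmFun
  rw [Finset.powersetCard_one, Finset.sum_map]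
  simp only [Embedding.coeFn_mk, Finset.prod_singleton]
  rw [Finset.sum_apply, Fintype.sum_option]
  simp only [conj]
  rw [sum_zmod_eq_sum_range (fun n => tr f n τ)]

/-- The `q`-expansion of the trace of `f`. -/
theorem hasSum_esymmForm_one (f : ModularForm (Gamma0 p) k) (τ : ℍ) :
    HasSum (fun n : ℕ => ((qExpansion 1 f).coeff n + (p : ℂ) * bS f (p * n))
      * Periodic.qParam 1 τ ^ n) (esymmForm f 1 τ) := by
  rw [esymmForm_apply, esymmConj_one_apply]
  have h1 := ModularForm.hasSum_qExpansion (f := f) one_pos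
    (CongruenceSubgroup.one_mem_strictPeriods_Gamma0 p) τ
  have h2 := hasSum_sum_tr f τ
  convert h1.add h2 using 1
  funext n
  ring

/-- `a_n(Tr f) = a_n(f) + p * b_{pn}(f ∣ S)`. -/
theorem qExpansion_esymmForm_one_coeff (f : ModularForm (Gamma0 p) k) (n : ℕ) :
    (qExpansion 1 (esymmForm f 1)).coeff n = (qExpansion 1 f).coeff n + (p : ℂ) * bS f (p * n) := by
  symm
  refine ModularFormClass.qExpansion_coeff_unique (c := fun n => (qExpansion 1 f).coeff n
    + (p : ℂ) * bS f (p * n)) one_pos one_mem_strictPeriods_SL ?_ n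
  intro τ
  simpa [smul_eq_mul] using hasSum_esymmForm_one f τ

end Fermat.Agent.S16.Conj53
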