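/-
S16 shared library CONJ (helper53): the Fricke involution without square roots,
`fW f z = (f ∣ S)(p z)`, as a modular form on `Γ₀(p)`.
-/
import Fermat.Agent.S16.Conj53.Trace
import Fermat.Prelude.Def_ModularForm_HeckeOperator

set_option autoImplicit false

open UpperHalfPlane ModularForm CongruenceSubgroup ModularGroup Function
open Matrix.SpecialLinearGroup
open scoped MatrixGroups ModularForm Manifold

namespace Fermat.Agent.S16.Conj53

variable {p : ℕ} {k : ℤ}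

/-- The matrix `S * diag(p, 1) = [[0, -1], [p, 0]]` in `GL(2, ℝ)`. -/
noncomputable def wMat (p : ℕ) : GL (Fin 2) ℝ := (mapGL ℝ S : GL (Fin 2) ℝ) * heckeDiagMatrix p

theorem val_wMat (hp : p ≠ 0) :
    ((wMat p : GL (Fin 2) ℝ) : Matrix (Fin 2) (Fin 2) ℝ) = !![0, -1; (p : ℝ), 0] := by
  rw [wMat, Units.val_mul, val_heckeDiagMatrix hp]
  ext i j
  fin_cases i <;> fin_cases j <;> simp [Matrix.mul_apply, Fin.sum_univ_two, S]

/-- For `γ ∈ Γ₀(p)`: `w γ = δ w` with `δ ∈ Γ₀(p)`. -/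
theorem wMat_mul_Gamma0 (hp : p ≠ 0) {γ : SL(2, ℤ)} (hγ : γ ∈ Gamma0 p) :
    ∃ δ : SL(2, ℤ), δ ∈ Gamma0 p ∧
      wMat p * (mapGL ℝ γ : GL (Fin 2) ℝ) = (mapGL ℝ δ : GL (Fin 2) ℝ) * wMat p := by
  rw [Gamma0_mem, ZMod.intCast_zmod_eq_zero_iff_dvd] at hγ
  obtain ⟨c', hc'⟩ := hγ
  have hdet : γ 0 0 * γ 1 1 - γ 0 1 * γ 1 0 = 1 := by
    have := γ.det_coe
    rw [Matrix.det_fin_two] at this
    exact this
  obtain ⟨δ, e00, e01, e10, e11⟩ : ∃ δ : SL(2, ℤ), δ 0 0 = γ 1 1 ∧ δ 0 1 = -c' ∧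
      δ 1 0 = -((p : ℤ) * γ 0 1) ∧ δ 1 1 = γ 0 0 := by
    refine ⟨⟨!![γ 1 1, -c'; -((p : ℤ) * γ 0 1), γ 0 0], ?_⟩, rfl, rfl, rfl, rfl⟩
    rw [Matrix.det_fin_two_of]
    rw [hc'] at hdet
    linear_combination hdet
  refine ⟨δ, ?_, ?_⟩
  · rw [Gamma0_mem, e10]
    simp
  · apply Units.ext
    rw [Units.val_mul, Units.val_mul, val_wMat hp]
    have h10 : ((γ 1 0 : ℤ) : ℝ) = (p : ℝ) * (c' : ℝ) := by exact_mod_cast hc'
    ext i j
    fin_cases i <;> fin_cases j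
    · simp [Matrix.mul_apply, Fin.sum_univ_two, e01, h10]
      ring
    · simp [Matrix.mul_apply, Fin.sum_univ_two, e00]
    · simp [Matrix.mul_apply, Fin.sum_univ_two, e11]
      ring
    · simp [Matrix.mul_apply, Fin.sum_univ_two, e10]

open ConjAct Pointwise in
theorem Gamma0_le_conj_wMat (hp : p ≠ 0) :
    (Gamma0 p : Subgroup (GL (Fin 2) ℝ)) ≤
      toConjAct (wMat p)⁻¹ • (Gamma0 p : Subgroup (GL (Fin 2) ℝ)) := by
  intro γ hγ
  obtain ⟨h, hh, rfl⟩ := Subgroup.mem_map.mp hγ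
  rw [Subgroup.mem_pointwise_smul_iff_inv_smul_mem, ← map_inv, inv_inv, ConjAct.toConjAct_smul]
  obtain ⟨δ, hδ, hδ'⟩ := wMat_mul_Gamma0 hp hh
  refine Subgroup.mem_map.mpr ⟨δ, hδ, ?_⟩
  rw [hδ', mul_inv_cancel_right]

/-- `f ∣[k] w`, `w = [[0,-1],[p,0]]`, as a modular form on `Γ₀(p)` (unnormalised Fricke). -/
noncomputable def fWaux [NeZero p] (f : ModularForm (Gamma0 p) k) : ModularForm (Gamma0 p) k where
  toFun := (f : ℍ → ℂ) ∣[k] wMat p
  slash_action_eq' γ hγ :=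
    (ModularForm.translate f (wMat p)).slash_action_eq' γ (Gamma0_le_conj_wMat (NeZero.ne p) hγ)
  holo' := (ModularForm.translate f (wMat p)).holo'
  bdd_at_cusps' hc :=
    (ModularForm.translate f (wMat p)).bdd_at_cusps' (hc.mono (Gamma0_le_conj_wMat (NeZero.ne p)))

theorem fWaux_apply [NeZero p] (f : ModularForm (Gamma0 p) k) (z : ℍ) :
    fWaux f z = (p : ℂ) ^ (k - 1) * gS f (heckeDiagMatrix p • z) := by
  show ((f : ℍ → ℂ) ∣[k] wMat p) z = _
  rw [wMat, SlashAction.slash_mul, slash_heckeDiagMatrix_apply k (NeZero.ne p)]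
  rfl

/-- The Fricke transform `fW f z = (f ∣ S)(p z)`, a modular form on `Γ₀(p)`. -/
noncomputable def fW [NeZero p] (f : ModularForm (Gamma0 p) k) : ModularForm (Gamma0 p) k :=
  ((p : ℂ) ^ (1 - k)) • fWaux f

theorem fW_apply [NeZero p] (f : ModularForm (Gamma0 p) k) (z : ℍ) :
    fW f z = gS f (heckeDiagMatrix p • z) := by
  have hp : (p : ℂ) ≠ 0 := by exact_mod_cast NeZero.ne p
  show ((p : ℂ) ^ (1 - k)) • fWaux f z = _
  rw [fWaux_apply, smul_eq_mul, ← mul_assoc, ← zpow_add₀ hp]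
  simp

theorem qParam_heckeDiagMatrix_smul [NeZero p] (z : ℍ) :
    Periodic.qParam (p : ℝ) ((heckeDiagMatrix p • z : ℍ) : ℂ) = Periodic.qParam 1 z := by
  have hp : (p : ℂ) ≠ 0 := by exact_mod_cast NeZero.ne p
  rw [coe_heckeDiagMatrix_smul (NeZero.ne p)]
  unfold Periodic.qParam
  congr 1
  push_cast
  field_simp

/-- The `q`-expansion of `fW f` has the `q^(1/p)`-coefficients of `f ∣ S` as coefficients. -/
theorem hasSum_fW [NeZero p] (f : ModularForm (Gamma0 p) k) (z : ℍ) :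
    HasSum (fun m : ℕ => bS f m * Periodic.qParam 1 z ^ m) (fW f z) := by
  rw [fW_apply]
  have h := hasSum_gS f (heckeDiagMatrix p • z)
  rwa [qParam_heckeDiagMatrix_smul] at h

theorem qExpansion_fW_coeff [NeZero p] (f : ModularForm (Gamma0 p) k) (m : ℕ) :
    (qExpansion 1 (fW f)).coeff m = bS f m := by
  symm
  refine ModularFormClass.qExpansion_coeff_unique (c := fun m => bS f m) one_pos
    (CongruenceSubgroup.one_mem_strictPeriods_Gamma0 p) ?_ m
  intro τ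
  simpa [smul_eq_mul] using hasSum_fW f τ

/-- Uniqueness of `q`-expansion coefficients for plain functions on `ℍ` (any period `h`). -/
theorem coeff_unique_aux {g : ℍ → ℂ} {h : ℝ} (hh : 0 < h) (hper : Periodic (g ∘ ofComplex) h)
    (hol : MDiff g) (hbdd : IsBoundedAtImInfty g) (c : ℕ → ℂ)
    (hs : ∀ τ : ℍ, HasSum (fun m : ℕ => c m * Periodic.qParam h τ ^ m) (g τ)) (m : ℕ) :
    (qExpansion h g).coeff m = c m := by
  have han : AnalyticAt ℂ (cuspFunction h g) 0 :=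
    UpperHalfPlane.analyticAt_cuspFunction_zero hh hper hol hbdd
  have h1 := (UpperHalfPlane.hasFPowerSeriesOnBall_cuspFunction (c := c) hh han
    (by simpa [smul_eq_mul] using hs)).hasFPowerSeriesAt
  have h2 := (UpperHalfPlane.hasFPowerSeriesOnBall_cuspFunction
    (c := fun m => (qExpansion h g).coeff m) hh han
    (UpperHalfPlane.hasSum_qExpansion hh hper hol hbdd)).hasFPowerSeriesAt
  have := congr_arg (FormalMultilinearSeries.coeff · m) (h2.eq_formalMultilinearSeries h1)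
  simpa [FormalMultilinearSeries.coeff_ofScalars] using this

theorem S_smul_diag_smul_S_smul [NeZero p] (τ : ℍ) :
    S • (heckeDiagMatrix p • (S • τ)) = heckeMatrix p 0 • τ := by
  have hp : (p : ℂ) ≠ 0 := by exact_mod_cast NeZero.ne p
  have hτ : (τ : ℂ) ≠ 0 := τ.ne_zero
  apply UpperHalfPlane.ext
  rw [modular_S_smul, coe_mk, coe_heckeDiagMatrix_smul (NeZero.ne p), modular_S_smul, coe_mk,
    coe_heckeMatrix_smul (NeZero.ne p)]
  field_simp
  simp

theorem gS_apply (f : ModularForm (Gamma0 p) k) (τ : ℍ) :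
    gS f τ = f (S • τ) * (τ : ℂ) ^ (-k) := by
  unfold gS
  rw [SL_slash_apply, denom_S]

/-- `(fW f) ∣ S (τ) = (-p)^(-k) f(τ / p)`. -/
theorem gS_fW_apply [NeZero p] (f : ModularForm (Gamma0 p) k) (τ : ℍ) :
    gS (fW f) τ = (-(p : ℂ)) ^ (-k) * f (heckeMatrix p 0 • τ) := by
  have hp : (p : ℂ) ≠ 0 := by exact_mod_cast NeZero.ne p
  have hτ : (τ : ℂ) ≠ 0 := τ.ne_zero
  rw [gS_apply, fW_apply, gS_apply, S_smul_diag_smul_S_smul, coe_heckeDiagMatrix_smul (NeZero.ne p),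
    modular_S_smul, coe_mk, mul_assoc, ← mul_zpow, mul_comm]
  congr 2
  field_simp

theorem qParam_heckeMatrix_zero_smul [NeZero p] (τ : ℍ) :
    Periodic.qParam 1 ((heckeMatrix p 0 • τ : ℍ) : ℂ) = Periodic.qParam (p : ℝ) τ := by
  rw [coe_heckeMatrix_smul (NeZero.ne p)]
  unfold Periodic.qParam
  congr 1
  push_cast
  ring

theorem hasSum_gS_fW [NeZero p] (f : ModularForm (Gamma0 p) k) (τ : ℍ) :
    HasSum (fun m : ℕ => ((-(p : ℂ)) ^ (-k) * (qExpansion 1 f).coeff m)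
      * Periodic.qParam (p : ℝ) τ ^ m) (gS (fW f) τ) := by
  rw [gS_fW_apply]
  have h := ModularForm.hasSum_qExpansion (f := f) one_pos
    (CongruenceSubgroup.one_mem_strictPeriods_Gamma0 p) (heckeMatrix p 0 • τ)
  rw [qParam_heckeMatrix_zero_smul] at h
  have h2 : HasSum (fun m : ℕ => (-(p : ℂ)) ^ (-k) * ((qExpansion 1 f).coeff m
      * Periodic.qParam (p : ℝ) τ ^ m)) ((-(p : ℂ)) ^ (-k) * f (heckeMatrix p 0 • τ)) :=
    h.mul_left _
  refine h2.congr_fun ?_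
  intro m
  ring

/-- The `q^(1/p)`-coefficients of `(fW f) ∣ S` are `(-p)^(-k) a_m(f)`. -/
theorem bS_fW [NeZero p] (f : ModularForm (Gamma0 p) k) (m : ℕ) :
    bS (fW f) m = (-(p : ℂ)) ^ (-k) * (qExpansion 1 f).coeff m := by
  have hp : (0 : ℝ) < p := by exact_mod_cast Nat.pos_of_ne_zero (NeZero.ne p)
  exact coeff_unique_aux hp (gS_periodic _) (gS_mdiff _) (gS_bdd _)
    (fun m => (-(p : ℂ)) ^ (-k) * (qExpansion 1 f).coeff m) (hasSum_gS_fW f) m

end Fermat.Agent.S16.Conj53
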