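/-
S16 shared library CONJ (helper53): weight two.  Since `M₂(SL₂(ℤ)) = 0`, for
`G ∈ M₂(Γ₀(p))` the `q^(1/p)`-coefficients of `G ∣ S` are `b_n = -(1/p) a_{pn}(G)`, i.e.
`G ∣ S (z) = -(1/p) (U_p G)(z/p)`, and all conjugates `G ∣ S T^j` are explicit.
-/
import Fermat.Agent.S16.Conj53.Fricke

set_option autoImplicit false

open UpperHalfPlane ModularForm CongruenceSubgroup ModularGroup Function
open Matrix.SpecialLinearGroup
open scoped MatrixGroups ModularForm Manifold

namespace Fermat.Agent.S16.Conj53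

variable {p : ℕ}

theorem levelOne_weight_two_eq_zero {k' : ℤ} (hk : k' = 2) (F : ModularForm 𝒮ℒ k') : F = 0 := by
  subst hk
  have h := levelOne_weight_two_rank_zero
  rw [rank_zero_iff_forall_zero] at h
  exact h F

variable [hp : Fact p.Prime]

/-- `a_n(G) + p * b_{pn}(G) = 0` in weight two. -/
theorem coeff_add_bS_weight_two (G : ModularForm (Gamma0 p) 2) (n : ℕ) :
    (qExpansion 1 G).coeff n + (p : ℂ) * bS G (p * n) = 0 := by
  have h0 : esymmForm G 1 = 0 := levelOne_weight_two_eq_zero (by norm_num) _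
  have h1 := qExpansion_esymmForm_one_coeff G n
  rw [h0, FunLike.coe_zero, qExpansion_zero] at h1
  rw [← h1]
  simp

/-- **Weight two**: the `q^(1/p)`-coefficients of `G ∣ S` are `-(1/p) a_{pn}(G)`. -/
theorem bS_weight_two (G : ModularForm (Gamma0 p) 2) (n : ℕ) :
    bS G n = -((p : ℂ)⁻¹) * (qExpansion 1 G).coeff (p * n) := by
  have hp0 : (p : ℂ) ≠ 0 := by exact_mod_cast hp.out.ne_zero
  have h := coeff_add_bS_weight_two (fW G) n
  rw [qExpansion_fW_coeff, bS_fW] at h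
  have h2 : (-(p : ℂ)) ^ (-(2 : ℤ)) = ((p : ℂ) ^ 2)⁻¹ := by
    rw [zpow_neg, zpow_ofNat, neg_sq]
  rw [h2] at h
  have h3 : bS G n = -((p : ℂ) * (((p : ℂ) ^ 2)⁻¹ * (qExpansion 1 G).coeff (p * n))) :=
    eq_neg_of_add_eq_zero_left h
  rw [h3]
  field_simp

/-- Expansion of `G ∣ S` in weight two. -/
theorem hasSum_gS_weight_two (G : ModularForm (Gamma0 p) 2) (τ : ℍ) :
    HasSum (fun m : ℕ => -((p : ℂ)⁻¹) * (qExpansion 1 G).coeff (p * m)
      * Periodic.qParam (p : ℝ) τ ^ m) (gS G τ) := by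
  have h := hasSum_gS G τ
  simp_rw [bS_weight_two] at h
  exact h

/-- Expansion of every conjugate `G ∣ S T^n` in weight two. -/
theorem hasSum_tr_weight_two (G : ModularForm (Gamma0 p) 2) (n : ℤ) (τ : ℍ) :
    HasSum (fun m : ℕ => -((p : ℂ)⁻¹) * (qExpansion 1 G).coeff (p * m) * (zeta p ^ n) ^ m
      * Periodic.qParam (p : ℝ) τ ^ m) (tr G n τ) := by
  have h := hasSum_tr G n τ
  simp_rw [bS_weight_two] at h
  exact h

/-- `a_n(fW G) = -(1/p) a_{pn}(G)`, i.e. `G ∣ W_p = -U_p G` up to the normalisation of `fW`. -/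
theorem qExpansion_fW_coeff_weight_two (G : ModularForm (Gamma0 p) 2) (n : ℕ) :
    (qExpansion 1 (fW G)).coeff n = -((p : ℂ)⁻¹) * (qExpansion 1 G).coeff (p * n) := by
  rw [qExpansion_fW_coeff, bS_weight_two]

end Fermat.Agent.S16.Conj53
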