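/-
S16 shared library CONJ (helper53): the conjugates of a form on `Γ₀(p)` as power series in
`t = q^(1/p)`, and transfer of expansions to the level one forms `esymmForm f i`
(`i = 1` trace, `i = p + 1` norm).  Same shapes as helper74's `Esymm74` (which treats Mathlib's
coset-indexed translates), but for the explicit family `conj f : Option (ZMod p) → ℍ → ℂ`.
-/
import Fermat.Agent.S16.Conj53.WeightTwo
import Fermat.Agent.S16.Esymm74

set_option autoImplicit false

open UpperHalfPlane ModularForm CongruenceSubgroup ModularGroup Function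
open Matrix.SpecialLinearGroup
open Fermat.Agent.S24.HasQExp
open scoped MatrixGroups ModularForm Manifold

namespace Fermat.Agent.S16.Conj53

variable {p : ℕ} {k : ℤ}

/-- `f` itself as a power series in `t = q^(1/p)`. -/
noncomputable def psNone (p : ℕ) (f : ℍ → ℂ) : PowerSeries ℂ :=
  PowerSeries.mk fun m => if p ∣ m then (qExpansion 1 f).coeff (m / p) else 0

/-- `f ∣ S T^j` as a power series in `t = q^(1/p)`. -/
noncomputable def psSome (f : ModularForm (Gamma0 p) k) (j : ZMod p) : PowerSeries ℂ :=
  PowerSeries.mk fun m => bS f m * (zeta p ^ ((j.val : ℕ) : ℤ)) ^ m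

/-- The power series in `t = q^(1/p)` of the `p + 1` conjugates. -/
noncomputable def conjPS (f : ModularForm (Gamma0 p) k) : Option (ZMod p) → PowerSeries ℂ
  | none => psNone p f
  | some j => psSome f j

@[simp] theorem coeff_psNone (f : ℍ → ℂ) (m : ℕ) :
    PowerSeries.coeff m (psNone p f) = if p ∣ m then (qExpansion 1 f).coeff (m / p) else 0 := by
  simp [psNone]

@[simp] theorem coeff_psSome (f : ModularForm (Gamma0 p) k) (j : ZMod p) (m : ℕ) :
    PowerSeries.coeff m (psSome f j) = bS f m * (zeta p ^ ((j.val : ℕ) : ℤ)) ^ m := by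
  simp [psSome]

theorem conjPS_none (f : ModularForm (Gamma0 p) k) : conjPS f none = psNone p f := rfl

theorem conjPS_some (f : ModularForm (Gamma0 p) k) (j : ZMod p) :
    conjPS f (some j) = psSome f j := rfl

/-- Spreading out a `q`-expansion: if `g τ = ∑ c n q^n` then `g τ = ∑_m [p ∣ m] c (m/p) t^m`. -/
theorem psum_spread [NeZero p] (c : ℕ → ℂ) (τ : ℍ) (s : ℂ)
    (h : HasSum (fun n : ℕ => c n * Periodic.qParam 1 τ ^ n) s) :
    PSum (PowerSeries.mk fun m => if p ∣ m then c (m / p) else 0) (qN p τ) s := by
  have hp0 : p ≠ 0 := NeZero.ne p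
  unfold Fermat.Agent.S24.HasQExp.PSum
  set F : ℕ → ℂ := fun m => PowerSeries.coeff m
    (PowerSeries.mk fun m => if p ∣ m then c (m / p) else 0) * qN p τ ^ m with hF
  have hinj : Injective (fun n : ℕ => p * n) := fun a b hab => Nat.eq_of_mul_eq_mul_left
    (Nat.pos_of_ne_zero hp0) hab
  have h3 : ∀ x ∉ Set.range (fun n : ℕ => p * n), F x = 0 := by
    intro x hx
    rw [hF]
    simp only [PowerSeries.coeff_mk]
    rw [if_neg, zero_mul]
    rintro ⟨d, rfl⟩
    exact hx ⟨d, rfl⟩
  rw [← hinj.hasSum_iff h3]
  convert h using 1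
  funext n
  simp only [comp_apply, hF, PowerSeries.coeff_mk]
  rw [if_pos (dvd_mul_right p n), Nat.mul_div_cancel_left n (Nat.pos_of_ne_zero hp0), pow_mul, qN,
    qParam_p_pow_p]

theorem psum_psNone [NeZero p] (f : ModularForm (Gamma0 p) k) (τ : ℍ) :
    PSum (psNone p f) (qN p τ) (f τ) := by
  have h := ModularForm.hasSum_qExpansion (f := f) one_pos
    (CongruenceSubgroup.one_mem_strictPeriods_Gamma0 p) τ
  exact psum_spread (fun n => (qExpansion 1 f).coeff n) τ (f τ) h

theorem psum_psSome [NeZero p] (f : ModularForm (Gamma0 p) k) (j : ZMod p) (τ : ℍ) :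
    PSum (psSome f j) (qN p τ) (tr f ((j.val : ℕ) : ℤ) τ) := by
  unfold Fermat.Agent.S24.HasQExp.PSum
  simp only [coeff_psSome]
  exact hasSum_tr f _ τ

variable [hp : Fact p.Prime]

theorem psum_conjPS (f : ModularForm (Gamma0 p) k) (v : Option (ZMod p)) (τ : ℍ) :
    PSum (conjPS f v) (qN p τ) (conj f v τ) := by
  cases v with
  | none => exact psum_psNone f τ
  | some j => exact psum_psSome f j τ

/-- Weight two: the coefficients of the conjugates are explicit. -/
theorem coeff_psSome_weight_two (G : ModularForm (Gamma0 p) 2) (j : ZMod p) (m : ℕ) :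
    PowerSeries.coeff m (psSome G j)
      = -((p : ℂ)⁻¹) * (qExpansion 1 G).coeff (p * m) * (zeta p ^ ((j.val : ℕ) : ℤ)) ^ m := by
  rw [coeff_psSome, bS_weight_two]

/-! ### Transfer of expansions to `esymmForm f i` -/

theorem esymmForm_apply_eq_esymm (f : ModularForm (Gamma0 p) k) (i : ℕ) (τ : ℍ) :
    esymmForm f i τ
      = ((Finset.univ : Finset (Option (ZMod p))).val.map fun v => conj f v τ).esymm i := by
  rw [Finset.esymm_map_val, esymmForm_apply, esymmConj, esymmFun, Finset.sum_apply]
  refine Finset.sum_congr rfl fun s _ => ?_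
  rw [Finset.prod_apply]

/-- If every conjugate of `f` has a convergent expansion `E v` in `t = q^(1/p)`, the level one
form `esymmForm f i` is the sum of the formal elementary symmetric function of the `E v`. -/
theorem psum_esymmForm (f : ModularForm (Gamma0 p) k) (E : Option (ZMod p) → PowerSeries ℂ)
    (hE : ∀ v (τ : ℍ), PSum (E v) (qN p τ) (conj f v τ)) (i : ℕ) (τ : ℍ) :
    PSum (((Finset.univ : Finset (Option (ZMod p))).val.map E).esymm i) (qN p τ)
      (esymmForm f i τ) := by
  rw [esymmForm_apply_eq_esymm]
  exact Esymm74.PSum.esymm (fun v => hE v τ) i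

/-- **Transfer of expansions**: coefficients of the formal elementary symmetric function of the
`t`-expansions of the conjugates are those of the `q`-expansion of `esymmForm f i`, spread out
by `p`. -/
theorem coeff_esymm_eq (f : ModularForm (Gamma0 p) k) (E : Option (ZMod p) → PowerSeries ℂ)
    (hE : ∀ v (τ : ℍ), PSum (E v) (qN p τ) (conj f v τ)) (i m : ℕ) :
    PowerSeries.coeff m (((Finset.univ : Finset (Option (ZMod p))).val.map E).esymm i)
      = if p ∣ m then (qExpansion 1 (esymmForm f i)).coeff (m / p) else 0 := by
  have hN : 0 < p := hp.out.pos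
  have hN' : (0 : ℝ) < p := by exact_mod_cast hN
  have h1 := ModularFormClass.qExpansion_coeff_unique (f := esymmForm f i)
    (c := fun m => PowerSeries.coeff m
      (((Finset.univ : Finset (Option (ZMod p))).val.map E).esymm i))
    hN' (Esymm74.natCast_mem_strictPeriods_SL p)
    (fun τ => by
      have := psum_esymmForm f E hE i τ
      simpa [Fermat.Agent.S24.HasQExp.PSum, qN, smul_eq_mul] using this) m
  rw [h1]
  have h2 := UpperHalfPlane.qExpansion_coeff_nat_mul (h := 1) one_pos
    (F := esymmForm f i)
    (SlashInvariantFormClass.periodic_comp_ofComplex (esymmForm f i)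
      one_mem_strictPeriods_SL)
    (ModularFormClass.holo (esymmForm f i))
    (ModularFormClass.bdd_at_infty (esymmForm f i)) hN m
  rw [mul_one] at h2
  exact h2

/-- The same for the canonical expansions `conjPS f`. -/
theorem coeff_esymm_conjPS (f : ModularForm (Gamma0 p) k) (i m : ℕ) :
    PowerSeries.coeff m
        (((Finset.univ : Finset (Option (ZMod p))).val.map (conjPS f)).esymm i)
      = if p ∣ m then (qExpansion 1 (esymmForm f i)).coeff (m / p) else 0 :=
  coeff_esymm_eq f (conjPS f) (psum_conjPS f) i m

theorem card_option_zmod : Fintype.card (Option (ZMod p)) = p + 1 := by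
  rw [Fintype.card_option, ZMod.card]

/-- The **norm** `i = p + 1`: the product of the expansions of all conjugates. -/
theorem coeff_prod_eq (f : ModularForm (Gamma0 p) k) (E : Option (ZMod p) → PowerSeries ℂ)
    (hE : ∀ v (τ : ℍ), PSum (E v) (qN p τ) (conj f v τ)) (m : ℕ) :
    PowerSeries.coeff m (∏ v, E v)
      = if p ∣ m then (qExpansion 1 (esymmForm f (p + 1))).coeff (m / p) else 0 := by
  rw [← coeff_esymm_eq f E hE (p + 1) m, Finset.esymm_map_val]
  have : Finset.powersetCard (p + 1) (Finset.univ : Finset (Option (ZMod p)))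
      = {Finset.univ} := by
    rw [← card_option_zmod (p := p), ← Finset.card_univ, Finset.powersetCard_self]
  rw [this, Finset.sum_singleton]

/-- **Integral transfer.** If every conjugate has a convergent `t`-expansion `E' v` with
coefficients in a subring `O ⊆ ℂ`, then the formal elementary symmetric function `P ∈ O⟦t⟧` of the
`E' v` is supported in degrees divisible by `p`, and its `p n`-th coefficient is the `n`-th
`q`-expansion coefficient of `esymmForm f i`. -/
theorem coeff_esymm_integral (f : ModularForm (Gamma0 p) k) (O : Subring ℂ)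
    (E' : Option (ZMod p) → PowerSeries O)
    (hE : ∀ v (τ : ℍ), PSum (PowerSeries.map O.subtype (E' v)) (qN p τ) (conj f v τ)) (i : ℕ) :
    (∀ m, ¬ p ∣ m → PowerSeries.coeff m
      (((Finset.univ : Finset (Option (ZMod p))).val.map E').esymm i) = 0) ∧
    ∀ n, ((PowerSeries.coeff (p * n)
      (((Finset.univ : Finset (Option (ZMod p))).val.map E').esymm i) : O) : ℂ)
      = (qExpansion 1 (esymmForm f i)).coeff n := by
  have hN : 0 < p := hp.out.pos
  have key : ∀ m, ((PowerSeries.coeff m
      (((Finset.univ : Finset (Option (ZMod p))).val.map E').esymm i) : O) : ℂ)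
      = if p ∣ m then (qExpansion 1 (esymmForm f i)).coeff (m / p) else 0 := by
    intro m
    have h := coeff_esymm_eq f (fun v => PowerSeries.map O.subtype (E' v)) hE i m
    rw [← h]
    have h2 : ((Finset.univ : Finset (Option (ZMod p))).val.map
        fun v => PowerSeries.map O.subtype (E' v))
        = (((Finset.univ : Finset (Option (ZMod p))).val.map E').map
          (PowerSeries.map O.subtype)) := by
      rw [Multiset.map_map]; rfl
    rw [h2, ← Esymm74.map_multiset_esymm, PowerSeries.coeff_map]
    rfl
  refine ⟨fun m hm => ?_, fun n => ?_⟩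
  · have := key m
    rw [if_neg hm] at this
    exact_mod_cast this
  · rw [key (p * n), if_pos (dvd_mul_right p n), Nat.mul_div_cancel_left n hN]

/-- The `q`-expansion coefficients of `esymmForm f i` lie in any subring containing the
coefficients of the `t`-expansions of all conjugates. -/
theorem qExpansion_esymmForm_coeff_mem (f : ModularForm (Gamma0 p) k) (O : Subring ℂ)
    (E' : Option (ZMod p) → PowerSeries O)
    (hE : ∀ v (τ : ℍ), PSum (PowerSeries.map O.subtype (E' v)) (qN p τ) (conj f v τ))
    (i n : ℕ) : (qExpansion 1 (esymmForm f i)).coeff n ∈ O := by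
  rw [← (coeff_esymm_integral f O E' hE i).2 n]
  exact SetLike.coe_mem _

/-- **Reduction.** In the situation of `coeff_esymm_integral` there is `A ∈ O⟦q⟧`, the
`q`-expansion of `esymmForm f i`, such that for every ring homomorphism `φ : O →+* R` the image of
`A`, spread out by `p`, is the formal elementary symmetric function of the images of the
`E' v`. -/
theorem exists_qExpansion_reduction (f : ModularForm (Gamma0 p) k) (O : Subring ℂ)
    (E' : Option (ZMod p) → PowerSeries O)
    (hE : ∀ v (τ : ℍ), PSum (PowerSeries.map O.subtype (E' v)) (qN p τ) (conj f v τ))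
    (i : ℕ) :
    ∃ A : PowerSeries O,
      (∀ n, ((PowerSeries.coeff n A : O) : ℂ) = (qExpansion 1 (esymmForm f i)).coeff n) ∧
      ∀ {R : Type*} [CommRing R] (φ : O →+* R) (m : ℕ),
        PowerSeries.coeff m
            (((Finset.univ : Finset (Option (ZMod p))).val.map
              fun v => PowerSeries.map φ (E' v)).esymm i)
          = if p ∣ m then φ (PowerSeries.coeff (m / p) A) else 0 := by
  have hN : 0 < p := hp.out.pos
  obtain ⟨h0, h1⟩ := coeff_esymm_integral f O E' hE i
  refine ⟨PowerSeries.mk fun n => PowerSeries.coeff (p * n)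
    (((Finset.univ : Finset (Option (ZMod p))).val.map E').esymm i), fun n => ?_,
    fun {R} _ φ m => ?_⟩
  · rw [PowerSeries.coeff_mk, h1]
  · have h2 : ((Finset.univ : Finset (Option (ZMod p))).val.map
        fun v => PowerSeries.map φ (E' v))
        = (((Finset.univ : Finset (Option (ZMod p))).val.map E').map (PowerSeries.map φ)) := by
      rw [Multiset.map_map]; rfl
    rw [h2, ← Esymm74.map_multiset_esymm, PowerSeries.coeff_map, PowerSeries.coeff_mk]
    split_ifs with hm
    · obtain ⟨c, rfl⟩ := hm
      rw [Nat.mul_div_cancel_left c hN]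
    · rw [h0 m hm, map_zero]

end Fermat.Agent.S16.Conj53
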