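/-
S16 shared library CONJ (helper53): algebra of conjugates (`conj` is multiplicative, additive,
linear), conjugates of level one forms restricted to `Γ₀(p)` (they are constant in the coset),
and of `F(p z)` (`raise`), via helper40's `EllP40.restr` / `EllP40.raise`.
-/
import Fermat.Agent.S16.Conj53.PS
import Fermat.Agent.S16.EllP40.LevelRaise

set_option autoImplicit false

open UpperHalfPlane ModularForm CongruenceSubgroup ModularGroup Function
open Matrix.SpecialLinearGroup
open Fermat.Agent.S24.HasQExp
open scoped MatrixGroups ModularForm Manifold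

namespace Fermat.Agent.S16.Conj53

variable {p : ℕ} {k k₁ k₂ : ℤ}

/-! ### Multiplicativity and linearity of `gS`, `tr` -/

theorem gS_mul (f : ModularForm (Gamma0 p) k₁) (g : ModularForm (Gamma0 p) k₂) :
    gS (f.mul g) = gS f * gS g := by
  unfold gS
  rw [ModularForm.coe_mul, mul_slash_SL2]

theorem tr_mul (f : ModularForm (Gamma0 p) k₁) (g : ModularForm (Gamma0 p) k₂) (n : ℤ) :
    tr (f.mul g) n = tr f n * tr g n := by
  unfold tr
  rw [gS_mul, mul_slash_SL2]

theorem gS_add (f g : ModularForm (Gamma0 p) k) : gS (f + g) = gS f + gS g := by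
  unfold gS
  rw [FunLike.coe_add, SlashAction.add_slash]

theorem tr_add (f g : ModularForm (Gamma0 p) k) (n : ℤ) : tr (f + g) n = tr f n + tr g n := by
  unfold tr
  rw [gS_add, SlashAction.add_slash]

theorem gS_neg (f : ModularForm (Gamma0 p) k) : gS (-f) = -gS f := by
  unfold gS
  rw [FunLike.coe_neg, SlashAction.neg_slash]

theorem tr_neg (f : ModularForm (Gamma0 p) k) (n : ℤ) : tr (-f) n = -tr f n := by
  unfold tr
  rw [gS_neg, SlashAction.neg_slash]

theorem gS_sub (f g : ModularForm (Gamma0 p) k) : gS (f - g) = gS f - gS g := by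
  rw [sub_eq_add_neg, gS_add, gS_neg, sub_eq_add_neg]

theorem tr_sub (f g : ModularForm (Gamma0 p) k) (n : ℤ) : tr (f - g) n = tr f n - tr g n := by
  rw [sub_eq_add_neg, tr_add, tr_neg, sub_eq_add_neg]

theorem gS_smul (c : ℂ) (f : ModularForm (Gamma0 p) k) : gS (c • f) = c • gS f := by
  unfold gS
  rw [FunLike.coe_smul, SL_smul_slash]

theorem tr_smul (c : ℂ) (f : ModularForm (Gamma0 p) k) (n : ℤ) : tr (c • f) n = c • tr f n := by
  unfold tr
  rw [gS_smul, SL_smul_slash]

/-! ### Level one forms -/

theorem levelOne_slash (F : ModularForm 𝒮ℒ k) (γ : SL(2, ℤ)) : (F : ℍ → ℂ) ∣[k] γ = F :=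
  SlashInvariantFormClass.slash_action_eq F _ ⟨γ, rfl⟩

theorem gS_restr [NeZero p] (F : ModularForm 𝒮ℒ k) : gS (EllP40.restr p F) = F := by
  unfold gS
  rw [EllP40.coe_restr, levelOne_slash]

theorem tr_restr [NeZero p] (F : ModularForm 𝒮ℒ k) (n : ℤ) : tr (EllP40.restr p F) n = F := by
  unfold tr
  rw [gS_restr, levelOne_slash]

/-- `fW (restr F) = raise F`, i.e. `F(p z)`. -/
theorem fW_restr [NeZero p] (F : ModularForm 𝒮ℒ k) :
    fW (EllP40.restr p F) = EllP40.raise p F := by
  ext z
  rw [fW_apply, gS_restr, EllP40.raise_apply]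

/-- `(raise F) ∣ S (τ) = (-p)^(-k) F(τ / p)`. -/
theorem gS_raise_apply [NeZero p] (F : ModularForm 𝒮ℒ k) (τ : ℍ) :
    gS (EllP40.raise p F) τ = (-(p : ℂ)) ^ (-k) * F (heckeMatrix p 0 • τ) := by
  rw [← fW_restr, gS_fW_apply, EllP40.restr_apply]

/-- The `q^(1/p)`-coefficients of `(raise F) ∣ S` are `(-p)^(-k) a_m(F)`. -/
theorem bS_raise [NeZero p] (F : ModularForm 𝒮ℒ k) (m : ℕ) :
    bS (EllP40.raise p F) m = (-(p : ℂ)) ^ (-k) * (qExpansion 1 F).coeff m := by
  rw [← fW_restr, bS_fW, EllP40.restr_qExpansion]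

/-! ### The family `conj` -/

variable [hp : Fact p.Prime]

theorem conj_mul (f : ModularForm (Gamma0 p) k₁) (g : ModularForm (Gamma0 p) k₂)
    (v : Option (ZMod p)) : conj (f.mul g) v = conj f v * conj g v := by
  cases v with
  | none => exact ModularForm.coe_mul f g
  | some j => exact tr_mul f g _

theorem conj_add (f g : ModularForm (Gamma0 p) k) (v : Option (ZMod p)) :
    conj (f + g) v = conj f v + conj g v := by
  cases v with
  | none => exact FunLike.coe_add f g
  | some j => exact tr_add f g _

theorem conj_neg (f : ModularForm (Gamma0 p) k) (v : Option (ZMod p)) :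
    conj (-f) v = -conj f v := by
  cases v with
  | none => exact FunLike.coe_neg f
  | some j => exact tr_neg f _

theorem conj_sub (f g : ModularForm (Gamma0 p) k) (v : Option (ZMod p)) :
    conj (f - g) v = conj f v - conj g v := by
  cases v with
  | none => exact FunLike.coe_sub f g
  | some j => exact tr_sub f g _

theorem conj_smul (c : ℂ) (f : ModularForm (Gamma0 p) k) (v : Option (ZMod p)) :
    conj (c • f) v = c • conj f v := by
  cases v with
  | none => exact FunLike.coe_smul c f
  | some j => exact tr_smul c f _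

/-- All conjugates of a level one form are the form itself. -/
theorem conj_restr (F : ModularForm 𝒮ℒ k) (v : Option (ZMod p)) :
    conj (EllP40.restr p F) v = F := by
  cases v with
  | none => rfl
  | some j => exact tr_restr F _

/-- The expansion of a level one form in `t = q^(1/p)`. -/
theorem psum_levelOne (F : ModularForm 𝒮ℒ k) (τ : ℍ) :
    PSum (psNone p F) (qN p τ) (F τ) := by
  have h := ModularForm.hasSum_qExpansion (f := F) one_pos one_mem_strictPeriods_SL τ
  exact psum_spread (fun n => (qExpansion 1 F).coeff n) τ (F τ) h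

/-- The expansion of any conjugate of a level one form. -/
theorem psum_conj_restr (F : ModularForm 𝒮ℒ k) (v : Option (ZMod p)) (τ : ℍ) :
    PSum (psNone p F) (qN p τ) (conj (EllP40.restr p F) v τ) := by
  rw [conj_restr]
  exact psum_levelOne F τ

end Fermat.Agent.S16.Conj53
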